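import Fermat.Agent.S21_helper86.Gamma0Bound
import Fermat.Agent.S21_helper65.Assembly
import Fermat.Agent.S21_helper52.Injective
import Fermat.Agent.S20_helper27.Index
import Fermat.Agent.S20_helper27.Fixed
import Fermat.Agent.S20_helper11.CuspCount

set_option autoImplicit false

/-!
Final assembly of the squeeze: the dimension formula for `S₂(Γ₀(N))` and the Eichler–Shimura
isomorphism both follow from the lower bound `genusFormula N ≤ dim S₂(Γ₀(N))`.
-/

namespace Fermat.Agent.S21_helper86

open Module ModularGroup CongruenceSubgroup ModularCurve ModularCurve.Period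
open scoped MatrixGroups

/-- The parabolic characters of `Γ₀(N)` form a finite-dimensional space of dimension at most
`2 * genusFormula N` (unconditional). -/
theorem finrank_parabolicHoms_Gamma0_le_genus (N : ℕ) [NeZero N] :
    FiniteDimensional ℂ (parabolicHoms ℂ (Gamma0 N) ℂ) ∧
    (finrank ℂ (parabolicHoms ℂ (Gamma0 N) ℂ) : ℚ) ≤ 2 * genusFormula N :=
  finrank_parabolicHoms_Gamma0_le N (Fermat.Agent.S20_helper27.card_XN N)
    (Fermat.Agent.S20_helper27.card_fixed_S N) (Fermat.Agent.S20_helper27.card_fixed_ST N)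
    (Fermat.Agent.S20_helper11.card_orbits_T N)

/-- The pair period map is injective (unconditional). -/
theorem periodHomPair_injective (N : ℕ) [NeZero N] : Function.Injective (periodHomPair N) :=
  Fermat.Agent.S21_helper52.periodHomPair_injective N
    (fun f => Fermat.Agent.S21_helper65.exists_hasEquivariantPrimitive f)
    (Fermat.Agent.S21_helper65.existsPeriodMapLinear N)

/-- The upper bound `dim S₂(Γ₀(N)) ≤ genusFormula N` (unconditional). -/
theorem finrank_cuspForm_two_le (N : ℕ) [NeZero N] :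
    FiniteDimensional ℂ (CuspForm (Gamma0 N) 2) ∧
    (finrank ℂ (CuspForm (Gamma0 N) 2) : ℚ) ≤ genusFormula N := by
  obtain ⟨hfin, hB⟩ := finrank_parabolicHoms_Gamma0_le_genus N
  have hA := periodHomPair_injective N
  let P' : (CuspForm (Gamma0 N) 2 × CuspForm (Gamma0 N) 2) →ₗ[ℂ]
      parabolicHoms ℂ (Gamma0 N) ℂ :=
    LinearMap.codRestrict _ (periodHomPair N)
      (fun x => Fermat.Agent.S21_helper65.range_periodHomPair_le (N := N) ⟨x, rfl⟩)
  have hP'inj : Function.Injective P' := by
    intro x y hxy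
    apply hA
    exact congrArg Subtype.val hxy
  have h1 : Module.Finite ℂ (CuspForm (Gamma0 N) 2 × CuspForm (Gamma0 N) 2) :=
    Module.Finite.of_injective P' hP'inj
  have h2 : Module.Finite ℂ (CuspForm (Gamma0 N) 2) :=
    Module.Finite.of_injective (LinearMap.inl ℂ _ (CuspForm (Gamma0 N) 2)) LinearMap.inl_injective
  refine ⟨h2, ?_⟩
  have h3 : finrank ℂ (CuspForm (Gamma0 N) 2 × CuspForm (Gamma0 N) 2)
      ≤ finrank ℂ (parabolicHoms ℂ (Gamma0 N) ℂ) :=
    LinearMap.finrank_le_finrank_of_injective hP'inj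
  rw [Module.finrank_prod] at h3
  have h4 : ((finrank ℂ (CuspForm (Gamma0 N) 2) + finrank ℂ (CuspForm (Gamma0 N) 2) : ℕ) : ℚ)
      ≤ (finrank ℂ (parabolicHoms ℂ (Gamma0 N) ℂ) : ℚ) := by exact_mod_cast h3
  push_cast at h4
  linarith

/-- **Both statements from the lower bound.** -/
theorem S20_and_S21_of_lower_bound (N : ℕ) [NeZero N]
    (hC : genusFormula N ≤ (finrank ℂ (CuspForm (Gamma0 N) 2) : ℚ)) :
    ((finrank ℂ (CuspForm (Gamma0 N) 2) : ℚ) = genusFormula N) ∧
      (Function.Injective (periodHomPair N) ∧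
        LinearMap.range (periodHomPair N) = parabolicHoms ℂ (Gamma0 N) ℂ) := by
  obtain ⟨hfin, hB⟩ := finrank_parabolicHoms_Gamma0_le_genus N
  exact Fermat.Agent.S21_helper65.squeeze N (periodHomPair_injective N) hfin hB hC

end Fermat.Agent.S21_helper86
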