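import Fermat.Agent.S21_helper86.ParabolicBound
import Fermat.Prelude.Def_ModularCurve_PeriodMap
import Fermat.Prelude.Def_ModularCurve_GenusNumerics

set_option autoImplicit false

/-!
The dimension bound for parabolic characters of a finite-index subgroup of `SL(2, ℤ)` containing
`-1` and all conjugates of some `T ^ n`.
-/

namespace Fermat.Agent.S21_helper86

open Module MulAction ModularGroup Matrix.SpecialLinearGroup ModularCurve.Period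
open scoped MatrixGroups

lemma fixCard_eq_natCard {G X : Type*} [Group G] [MulAction G X] [Fintype X] [DecidableEq X]
    (g : G) : fixCard (X := X) g = Nat.card (MulAction.fixedBy X g) := by
  rw [fixCard, Nat.card_eq_fintype_card, ← Fintype.card_subtype]
  rfl

lemma SL2Z_S_mul_S : (S : SL(2, ℤ)) * S = -1 := by
  ext i j
  fin_cases i <;> fin_cases j <;> simp [S]

lemma SL2Z_U_cube : ((S : SL(2, ℤ)) * T) * (S * T) * (S * T) = -1 := by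
  ext i j
  fin_cases i <;> fin_cases j <;> simp [S, T, Matrix.mul_apply, Fin.sum_univ_two]

lemma SL2Z_neg_one_central (g : SL(2, ℤ)) : (-1 : SL(2, ℤ)) * g = g * (-1) := by
  simp

lemma SL2Z_closure_S_U : Subgroup.closure {(S : SL(2, ℤ)), S * T} = ⊤ := by
  rw [eq_top_iff, ← SpecialLinearGroup.SL2Z_generators]
  rw [Subgroup.closure_le]
  rintro x (rfl | rfl)
  · exact Subgroup.subset_closure (Set.mem_insert _ _)
  · have h1 : (S : SL(2, ℤ)) ∈ Subgroup.closure {(S : SL(2, ℤ)), S * T} :=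
      Subgroup.subset_closure (Set.mem_insert _ _)
    have h2 : (S : SL(2, ℤ)) * T ∈ Subgroup.closure {(S : SL(2, ℤ)), S * T} :=
      Subgroup.subset_closure (Set.mem_insert_of_mem _ rfl)
    have := Subgroup.mul_mem _ (Subgroup.inv_mem _ h1) h2
    rwa [inv_mul_cancel_left] at this

lemma trace_conj_T_pow_inv (h : SL(2, ℤ)) (n : ℕ) :
    ((h⁻¹ * (T ^ n)⁻¹ * h : SL(2, ℤ)) : Matrix (Fin 2) (Fin 2) ℤ).trace = 2 := by
  rw [mul_assoc, coe_mul, Matrix.trace_mul_comm, ← coe_mul, mul_assoc, mul_inv_cancel, mul_one,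
    ← zpow_natCast, ← zpow_neg, coe_T_zpow, Matrix.trace_fin_two_of]
  norm_num

variable (Γ : Subgroup SL(2, ℤ)) [Finite (SL(2, ℤ) ⧸ Γ)]

/-- **Dimension bound for parabolic characters.** -/
theorem six_mul_finrank_parabolicHoms_le (hneg : (-1 : SL(2, ℤ)) ∈ Γ) (n : ℕ) (hn : n ≠ 0)
    (hT : ∀ h : SL(2, ℤ), h⁻¹ * (T ^ n)⁻¹ * h ∈ Γ) :
    FiniteDimensional ℂ (parabolicHoms ℂ Γ ℂ) ∧
    6 * finrank ℂ (parabolicHoms ℂ Γ ℂ)
      + 3 * Nat.card (MulAction.fixedBy (SL(2, ℤ) ⧸ Γ) (S : SL(2, ℤ)))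
      + 4 * Nat.card (MulAction.fixedBy (SL(2, ℤ) ⧸ Γ) ((S : SL(2, ℤ)) * T))
      + 6 * Nat.card (MulAction.orbitRel.Quotient (Subgroup.zpowers (T : SL(2, ℤ))) (SL(2, ℤ) ⧸ Γ))
      ≤ Nat.card (SL(2, ℤ) ⧸ Γ) + 12 := by
  classical
  have : Fintype (SL(2, ℤ) ⧸ Γ) := Fintype.ofFinite _
  have hSUT : (S : SL(2, ℤ))⁻¹ * (S * T) = T := inv_mul_cancel_left _ _
  have hH : ∀ ψ ∈ parabolicHoms ℂ Γ ℂ, ∀ h : SL(2, ℤ),
      ∃ hm : h⁻¹ * (((S : SL(2, ℤ))⁻¹ * (S * T)) ^ n)⁻¹ * h ∈ Γ,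
        ψ (Additive.ofMul (⟨_, hm⟩ : Γ)) = 0 := by
    intro ψ hψ h
    rw [hSUT]
    refine ⟨hT h, ?_⟩
    rw [mem_parabolicHoms_iff] at hψ
    apply hψ
    show ((h⁻¹ * (T ^ n)⁻¹ * h : SL(2, ℤ)) : Matrix (Fin 2) (Fin 2) ℤ).trace ^ 2 = 4
    rw [trace_conj_T_pow_inv]
    norm_num
  obtain ⟨hfin, hmain⟩ := finrank_add_card_add_card_le (Γ := Γ) (S : SL(2, ℤ)) (S * T) (-1)
    SL2Z_closure_S_U SL2Z_S_mul_S SL2Z_U_cube hneg SL2Z_neg_one_central (by simp) n hn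
    (parabolicHoms ℂ Γ ℂ) hH
  refine ⟨hfin, ?_⟩
  rw [hSUT] at hmain
  have hε : ∀ x : SL(2, ℤ) ⧸ Γ, (-1 : SL(2, ℤ)) • x = x :=
    central_smul (-1) hneg SL2Z_neg_one_central
  have h2 := finrank_ker_id_add_L (X := SL(2, ℤ) ⧸ Γ) (S : SL(2, ℤ)) (fun x => by
    rw [← mul_smul, SL2Z_S_mul_S]; exact hε x)
  have h3 := finrank_ker_id_add_L_add_L_sq (X := SL(2, ℤ) ⧸ Γ) ((S : SL(2, ℤ)) * T) (fun x => by
    rw [← mul_smul, ← mul_smul, SL2Z_U_cube]; exact hε x)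
  rw [fixCard_eq_natCard, ← Nat.card_eq_fintype_card] at h2 h3
  change 2 * finrank ℂ (KS Γ S) + _ = _ at h2
  change 3 * finrank ℂ (KU Γ (S * T)) + _ = _ at h3
  omega


open CongruenceSubgroup in
lemma neg_one_mem_Gamma0 (N : ℕ) : (-1 : SL(2, ℤ)) ∈ Gamma0 N := by
  rw [Gamma0_mem]
  simp

open CongruenceSubgroup in
lemma conj_T_pow_inv_mem_Gamma0 (N : ℕ) (h : SL(2, ℤ)) : h⁻¹ * (T ^ N)⁻¹ * h ∈ Gamma0 N := by
  have h1 : (T ^ N : SL(2, ℤ)) ∈ Gamma N := by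
    have := ModularGroup_T_pow_mem_Gamma (N : ℤ) (N : ℤ) dvd_rfl
    simpa using this
  have h2 : (T ^ N : SL(2, ℤ))⁻¹ ∈ Gamma N := Subgroup.inv_mem _ h1
  have h3 := (Gamma_normal N).conj_mem _ h2 h⁻¹
  rw [inv_inv] at h3
  rw [Gamma_mem] at h3
  rw [Gamma0_mem]
  exact h3.2.2.1

open CongruenceSubgroup ModularCurve in
/-- The bound in the shape of the genus formula, given the four counting identities for the
coset space of `Γ₀(N)`. -/
theorem finrank_parabolicHoms_Gamma0_le (N : ℕ) [NeZero N]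
    (hμ : Nat.card (SL(2, ℤ) ⧸ Gamma0 N) = dedekindPsi N)
    (h2 : Nat.card (MulAction.fixedBy (SL(2, ℤ) ⧸ Gamma0 N) (S : SL(2, ℤ))) = nuTwo N)
    (h3 : Nat.card (MulAction.fixedBy (SL(2, ℤ) ⧸ Gamma0 N) ((S : SL(2, ℤ)) * T)) = nuThree N)
    (hc : Nat.card (MulAction.orbitRel.Quotient (Subgroup.zpowers (T : SL(2, ℤ)))
      (SL(2, ℤ) ⧸ Gamma0 N)) = cuspCount N) :
    FiniteDimensional ℂ (parabolicHoms ℂ (Gamma0 N) ℂ) ∧
    (finrank ℂ (parabolicHoms ℂ (Gamma0 N) ℂ) : ℚ) ≤ 2 * genusFormula N := by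
  have : Finite (SL(2, ℤ) ⧸ Gamma0 N) := Subgroup.finite_quotient_of_finiteIndex
  obtain ⟨hfin, hmain⟩ := six_mul_finrank_parabolicHoms_le (Gamma0 N) (neg_one_mem_Gamma0 N) N
    (NeZero.ne N) (conj_T_pow_inv_mem_Gamma0 N)
  refine ⟨hfin, ?_⟩
  rw [hμ, h2, h3, hc] at hmain
  have hq : (6 * finrank ℂ (parabolicHoms ℂ (Gamma0 N) ℂ) + 3 * nuTwo N + 4 * nuThree N
      + 6 * cuspCount N : ℚ) ≤ dedekindPsi N + 12 := by exact_mod_cast hmain
  unfold genusFormula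
  linarith

end Fermat.Agent.S21_helper86
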