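import Fermat.Agent.S21_helper86.PermModule

set_option autoImplicit false

/-!
Invariant functions, the norm operator of a finite-order translation, and the
augmentation kernel of a permutation module.
-/

namespace Fermat.Agent.S21_helper86

open Module MulAction

variable {G X : Type*} [Group G] [MulAction G X]

/-- The norm operator `∑_{k<n} L (t^k)`. -/
def Nop (t : G) (n : ℕ) : (X → ℂ) →ₗ[ℂ] (X → ℂ) := ∑ k ∈ Finset.range n, L (t ^ k)

lemma Nop_apply (t : G) (n : ℕ) (φ : X → ℂ) :
    Nop t n φ = ∑ k ∈ Finset.range n, L (t ^ k) φ := by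
  simp [Nop, LinearMap.sum_apply]

/-- Functions invariant under `t`. -/
def invSub (t : G) : Submodule ℂ (X → ℂ) where
  carrier := {ξ | ∀ x, ξ (t • x) = ξ x}
  zero_mem' := fun _ => rfl
  add_mem' := by
    intro a b ha hb x
    simp only [Pi.add_apply, ha x, hb x]
  smul_mem' := by
    intro c a ha x
    simp only [Pi.smul_apply, ha x]

lemma mem_invSub {t : G} {ξ : X → ℂ} : ξ ∈ invSub (X := X) t ↔ ∀ x, ξ (t • x) = ξ x := Iff.rfl

lemma invSub_pow {t : G} {ξ : X → ℂ} (h : ξ ∈ invSub (X := X) t) (k : ℕ) (x : X) :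
    ξ (t ^ k • x) = ξ x := by
  induction k with
  | zero => simp
  | succ k ih => rw [pow_succ', mul_smul, h, ih]

lemma invSub_inv {t : G} {ξ : X → ℂ} (h : ξ ∈ invSub (X := X) t) (x : X) :
    ξ (t⁻¹ • x) = ξ x := by
  have := h (t⁻¹ • x)
  rw [smul_inv_smul] at this
  exact this.symm

lemma invSub_zpow {t : G} {ξ : X → ℂ} (h : ξ ∈ invSub (X := X) t) (k : ℤ) (x : X) :
    ξ (t ^ k • x) = ξ x := by
  induction k using Int.induction_on generalizing x with
  | zero => simp
  | succ k ih =>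
    rw [zpow_add_one, mul_smul, ih, h]
  | pred k ih =>
    rw [zpow_sub_one, mul_smul, ih, invSub_inv h]

lemma L_pow_of_mem_invSub {t : G} {ξ : X → ℂ} (h : ξ ∈ invSub (X := X) t) (k : ℕ) :
    L (t ^ k) ξ = ξ := by
  ext x
  rw [L_apply, ← inv_pow]
  have h' : ξ ∈ invSub (X := X) t⁻¹ := fun y => invSub_inv h y
  exact invSub_pow h' k x

lemma Nop_of_mem_invSub {t : G} {ξ : X → ℂ} (h : ξ ∈ invSub (X := X) t) (n : ℕ) :
    Nop t n ξ = (n : ℂ) • ξ := by
  rw [Nop_apply, Finset.sum_congr rfl (fun k _ => L_pow_of_mem_invSub h k)]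
  simp [Finset.sum_const, Nat.cast_smul_eq_nsmul]

/-- The norm operator lands in the invariants when `t ^ n` acts trivially. -/
lemma Nop_mem_invSub (t : G) (n : ℕ) (hn : n ≠ 0) (ht : ∀ x : X, t ^ n • x = x) (φ : X → ℂ) :
    Nop t n φ ∈ invSub (X := X) t := by
  intro x
  rw [Nop_apply]
  simp only [Finset.sum_apply, L_apply]
  -- ∑_{k<n} φ (t^{-k} t x) = ∑_{k<n} φ (t^{-k} x)
  obtain ⟨m, rfl⟩ : ∃ m, n = m + 1 := Nat.exists_eq_succ_of_ne_zero hn
  rw [Finset.sum_range_succ', Finset.sum_range_succ]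
  congr 1
  · refine Finset.sum_congr rfl fun k _ => ?_
    congr 1
    rw [← mul_smul]
    congr 1
    rw [pow_succ', mul_inv_rev, inv_mul_cancel_right]
  · simp only [pow_zero, inv_one, one_smul]
    congr 1
    have := ht x
    rw [pow_succ, mul_smul] at this
    rw [eq_inv_smul_iff]
    exact this

lemma range_Nop (t : G) (n : ℕ) (hn : n ≠ 0) (ht : ∀ x : X, t ^ n • x = x) :
    LinearMap.range (Nop (X := X) t n) = invSub t := by
  apply le_antisymm
  · rintro _ ⟨φ, rfl⟩
    exact Nop_mem_invSub t n hn ht φ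
  · intro ξ hξ
    refine ⟨((n : ℂ)⁻¹) • ξ, ?_⟩
    rw [map_smul, Nop_of_mem_invSub hξ, smul_smul, inv_mul_cancel₀ (Nat.cast_ne_zero.mpr hn),
      one_smul]

section orbits

variable [Finite X]

/-- Invariant functions are functions on the orbit space. -/
noncomputable def invSubEquiv (t : G) :
    (orbitRel.Quotient (Subgroup.zpowers t) X → ℂ) ≃ₗ[ℂ] invSub (X := X) t where
  toFun f := ⟨fun x => f (Quotient.mk'' x), by
    intro x
    show f (Quotient.mk'' (t • x)) = f (Quotient.mk'' x)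
    congr 1
    apply Quotient.sound'
    rw [orbitRel_apply]
    exact ⟨⟨t, Subgroup.mem_zpowers t⟩, rfl⟩⟩
  map_add' _ _ := rfl
  map_smul' _ _ := rfl
  invFun ξ := Quotient.lift (ξ : X → ℂ) (by
    intro a b hab
    change (orbitRel (Subgroup.zpowers t) X) a b at hab
    rw [orbitRel_apply] at hab
    obtain ⟨⟨g, hg⟩, rfl⟩ := hab
    obtain ⟨k, rfl⟩ := Subgroup.mem_zpowers_iff.mp hg
    exact invSub_zpow ξ.2 k b)
  left_inv f := by
    ext q
    induction q using Quotient.inductionOn' with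
    | h x => rfl
  right_inv ξ := by
    ext x
    rfl

lemma finrank_invSub (t : G) :
    finrank ℂ (invSub (X := X) t) = Nat.card (orbitRel.Quotient (Subgroup.zpowers t) X) := by
  classical
  have := Fintype.ofFinite (orbitRel.Quotient (Subgroup.zpowers t) X)
  rw [← (invSubEquiv (X := X) t).finrank_eq, Module.finrank_fintype_fun_eq_card,
    Nat.card_eq_fintype_card]

end orbits

section aug

variable [Fintype X]

/-- The sum functional. -/
def sumF : (X → ℂ) →ₗ[ℂ] ℂ := ∑ x, LinearMap.proj x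

lemma sumF_apply (φ : X → ℂ) : sumF φ = ∑ x, φ x := by
  simp [sumF, LinearMap.sum_apply]

/-- The augmentation kernel. -/
def augKer : Submodule ℂ (X → ℂ) := LinearMap.ker (sumF (X := X))

lemma mem_augKer {φ : X → ℂ} : φ ∈ augKer (X := X) ↔ ∑ x, φ x = 0 := by
  rw [augKer, LinearMap.mem_ker, sumF_apply]

lemma L_mem_augKer (g : G) {φ : X → ℂ} (h : φ ∈ augKer (X := X)) : L g φ ∈ augKer (X := X) := by
  rw [mem_augKer] at h ⊢
  rw [← h]
  exact Fintype.sum_equiv (MulAction.toPerm g⁻¹) _ _ (fun x => rfl)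

variable [DecidableEq X]

lemma single_sub_single_mem_augKer (x y : X) :
    (Pi.single x 1 - Pi.single y 1 : X → ℂ) ∈ augKer (X := X) := by
  rw [mem_augKer]
  simp [Finset.sum_sub_distrib]

/-- `augKer ⊔ span {δ_{x₀}} = ⊤`. -/
lemma augKer_sup_span (x₀ : X) :
    augKer (X := X) ⊔ Submodule.span ℂ {(Pi.single x₀ 1 : X → ℂ)} = ⊤ := by
  rw [eq_top_iff]
  intro φ _
  have h1 : φ - (∑ x, φ x) • (Pi.single x₀ 1 : X → ℂ) ∈ augKer (X := X) := by
    rw [mem_augKer]
    simp [Finset.sum_sub_distrib, Pi.single_apply]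
  have h2 : (∑ x, φ x) • (Pi.single x₀ 1 : X → ℂ) ∈ Submodule.span ℂ {(Pi.single x₀ 1 : X → ℂ)} :=
    Submodule.smul_mem _ _ (Submodule.mem_span_singleton_self _)
  have := Submodule.add_mem_sup h1 h2
  simpa using this

/-- Every element of the augmentation kernel is a combination of `δ_x - δ_{x₀}`. -/
lemma augKer_le_of_forall (x₀ : X) (W : Submodule ℂ (X → ℂ))
    (h : ∀ x : X, (Pi.single x 1 - Pi.single x₀ 1 : X → ℂ) ∈ W) : augKer (X := X) ≤ W := by
  intro φ hφ
  rw [mem_augKer] at hφ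
  have : φ = ∑ x, φ x • (Pi.single x 1 - Pi.single x₀ 1 : X → ℂ) := by
    ext y
    simp only [Finset.sum_apply, Pi.smul_apply, Pi.sub_apply, Pi.single_apply, smul_eq_mul,
      mul_sub, Finset.sum_sub_distrib, mul_ite, mul_one, mul_zero, Finset.sum_ite_eq,
      Finset.mem_univ, if_true]
    by_cases hy : y = x₀
    · subst hy
      simp [hφ]
    · have : ∀ x : X, (if y = x₀ then φ x else 0) = 0 := fun x => by simp [hy]
      simp [this]
  rw [this]
  exact Submodule.sum_mem _ fun x _ => Submodule.smul_mem _ _ (h x)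

/-- The image of the augmentation kernel under a linear map has codimension at most one in the
range. -/
lemma finrank_range_le_map_augKer [Nonempty X] {W : Type*} [AddCommGroup W] [Module ℂ W]
    (f : (X → ℂ) →ₗ[ℂ] W) :
    finrank ℂ (LinearMap.range f) ≤ finrank ℂ ((augKer (X := X)).map f) + 1 := by
  obtain ⟨x₀⟩ := ‹Nonempty X›
  have h1 : LinearMap.range f =
      (augKer (X := X)).map f ⊔ Submodule.span ℂ {f (Pi.single x₀ 1)} := by
    rw [← Submodule.map_top, ← augKer_sup_span x₀, Submodule.map_sup, Submodule.map_span,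
      Set.image_singleton]
  rw [h1]
  refine (Submodule.finrank_add_le_finrank_add_finrank _ _).trans ?_
  gcongr
  exact (finrank_span_le_card _).trans (by simp)

end aug

end Fermat.Agent.S21_helper86
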