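import Fermat.Agent.S21_helper86.Shapiro

set_option autoImplicit false

/-!
The abstract dimension bound for characters of a finite-index subgroup `Γ` of a group
generated by `S` (with `S² = ε`) and `U` (with `U³ = ε`), `ε` central of order two in `Γ`,
that vanish on the conjugates of `T^n`, `T = S⁻¹ U`.
-/

namespace Fermat.Agent.S21_helper86

open Module MulAction

variable {G : Type*} [Group G] (Γ : Subgroup G)

/-- `ker (1 + L S)` on the permutation module of `G ⧸ Γ`. -/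
def KS (S : G) : Submodule ℂ (G ⧸ Γ → ℂ) :=
  LinearMap.ker (LinearMap.id + L S : (G ⧸ Γ → ℂ) →ₗ[ℂ] (G ⧸ Γ → ℂ))

/-- `ker (1 + L U + L U ∘ L U)` on the permutation module of `G ⧸ Γ`. -/
def KU (U : G) : Submodule ℂ (G ⧸ Γ → ℂ) :=
  LinearMap.ker (LinearMap.id + L U + L U ∘ₗ L U : (G ⧸ Γ → ℂ) →ₗ[ℂ] (G ⧸ Γ → ℂ))

variable {Γ}

lemma central_smul (ε : G) (hεΓ : ε ∈ Γ) (hεc : ∀ g, ε * g = g * ε) (x : G ⧸ Γ) : ε • x = x := by
  induction x using QuotientGroup.induction_on with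
  | H h =>
    rw [MulAction.Quotient.smul_mk, smul_eq_mul, hεc h]
    exact QuotientGroup.mk_mul_of_mem h hεΓ

lemma L_central (ε : G) (hεΓ : ε ∈ Γ) (hεc : ∀ g, ε * g = g * ε) :
    (L ε : (G ⧸ Γ → ℂ) →ₗ[ℂ] (G ⧸ Γ → ℂ)) = LinearMap.id :=
  L_eq_id_of_smul_eq ε (central_smul ε hεΓ hεc)

lemma id_sub_L_mem_KS (S ε : G) (hS : S * S = ε) (hεΓ : ε ∈ Γ) (hεc : ∀ g, ε * g = g * ε)
    (φ : G ⧸ Γ → ℂ) : φ - L S φ ∈ KS Γ S := by
  have hSS : L S (L S φ) = φ := by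
    rw [← L_mul_apply, hS, L_central ε hεΓ hεc]; rfl
  rw [KS, LinearMap.mem_ker]
  simp only [LinearMap.add_apply, LinearMap.id_coe, id_eq, map_sub, hSS]
  abel

lemma id_sub_L_mem_KU (U ε : G) (hU : U * U * U = ε) (hεΓ : ε ∈ Γ) (hεc : ∀ g, ε * g = g * ε)
    (φ : G ⧸ Γ → ℂ) : φ - L U φ ∈ KU Γ U := by
  have hUUU : L U (L U (L U φ)) = φ := by
    rw [← L_mul_apply, ← L_mul_apply, hU, L_central ε hεΓ hεc]; rfl
  rw [KU, LinearMap.mem_ker]
  simp only [LinearMap.add_apply, LinearMap.id_coe, id_eq, LinearMap.comp_apply, map_sub, hUUU]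
  abel

/-- The augmentation kernel is contained in `KS ⊔ KU`. -/
lemma augKer_le_KS_sup_KU [Fintype (G ⧸ Γ)] [DecidableEq (G ⧸ Γ)]
    (S U ε : G) (hgen : Subgroup.closure {S, U} = ⊤)
    (hS : S * S = ε) (hU : U * U * U = ε) (hεΓ : ε ∈ Γ) (hεc : ∀ g, ε * g = g * ε) :
    augKer (X := G ⧸ Γ) ≤ KS Γ S ⊔ KU Γ U := by
  set W := KS Γ S ⊔ KU Γ U with hW
  have key : ∀ g : G, ∀ y : G ⧸ Γ,
      (Pi.single (g • y) 1 - Pi.single y 1 : G ⧸ Γ → ℂ) ∈ W := by
    intro g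
    have hg : g ∈ Subgroup.closure {S, U} := by rw [hgen]; trivial
    induction hg using Subgroup.closure_induction with
    | mem x hx =>
      intro y
      rcases hx with rfl | rfl
      · have := id_sub_L_mem_KS x ε hS hεΓ hεc (Pi.single y 1)
        rw [L_single] at this
        have h2 : (Pi.single (x • y) 1 - Pi.single y 1 : G ⧸ Γ → ℂ)
            = -(Pi.single y 1 - Pi.single (x • y) 1) := by abel
        rw [h2]
        exact Submodule.neg_mem _ (Submodule.mem_sup_left this)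
      · have := id_sub_L_mem_KU x ε hU hεΓ hεc (Pi.single y 1)
        rw [L_single] at this
        have h2 : (Pi.single (x • y) 1 - Pi.single y 1 : G ⧸ Γ → ℂ)
            = -(Pi.single y 1 - Pi.single (x • y) 1) := by abel
        rw [h2]
        exact Submodule.neg_mem _ (Submodule.mem_sup_right this)
    | one => intro y; simp
    | mul x y _ _ hx hy =>
      intro z
      have h1 := hx (y • z)
      have h2 := hy z
      have : (Pi.single ((x * y) • z) 1 - Pi.single z 1 : G ⧸ Γ → ℂ)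
          = (Pi.single (x • y • z) 1 - Pi.single (y • z) 1)
            + (Pi.single (y • z) 1 - Pi.single z 1) := by
        rw [mul_smul]; abel
      rw [this]
      exact Submodule.add_mem _ h1 h2
    | inv x _ hx =>
      intro z
      have h1 := hx (x⁻¹ • z)
      rw [smul_inv_smul] at h1
      have : (Pi.single (x⁻¹ • z) 1 - Pi.single z 1 : G ⧸ Γ → ℂ)
          = -(Pi.single z 1 - Pi.single (x⁻¹ • z) 1) := by abel
      rw [this]
      exact Submodule.neg_mem _ h1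
  refine augKer_le_of_forall ((1 : G) : G ⧸ Γ) W fun x => ?_
  induction x using QuotientGroup.induction_on with
  | H h =>
    have := key h ((1 : G) : G ⧸ Γ)
    rwa [MulAction.Quotient.smul_mk, smul_eq_mul, mul_one] at this

section main

variable [Finite (G ⧸ Γ)]

/-- **Main abstract bound.** -/
theorem finrank_add_card_add_card_le
    (S U ε : G) (hgen : Subgroup.closure {S, U} = ⊤)
    (hS : S * S = ε) (hU : U * U * U = ε) (hεΓ : ε ∈ Γ) (hεc : ∀ g, ε * g = g * ε)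
    (hε2 : ε * ε = 1) (n : ℕ) (hn : n ≠ 0)
    (H : Submodule ℂ (Additive Γ →+ ℂ))
    (hH : ∀ ψ ∈ H, ∀ h : G, ∃ hm : h⁻¹ * ((S⁻¹ * U) ^ n)⁻¹ * h ∈ Γ,
      ψ (Additive.ofMul (⟨_, hm⟩ : Γ)) = 0) :
    FiniteDimensional ℂ H ∧
    finrank ℂ H + Nat.card (G ⧸ Γ)
        + Nat.card (orbitRel.Quotient (Subgroup.zpowers (S⁻¹ * U)) (G ⧸ Γ))
      ≤ finrank ℂ (KS Γ S) + finrank ℂ (KU Γ U) + 2 := by
  classical
  have : Fintype (G ⧸ Γ) := Fintype.ofFinite _
  have : Nonempty (G ⧸ Γ) := ⟨((1 : G) : G ⧸ Γ)⟩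
  set t : G := S⁻¹ * U with ht
  set x₀ : G ⧸ Γ := ((1 : G) : G ⧸ Γ) with hx₀
  -- `t ^ n` acts trivially
  have htn : ∀ x : G ⧸ Γ, t ^ n • x = x := by
    intro x
    induction x using QuotientGroup.induction_on with
    | H h =>
      obtain ⟨hm, -⟩ := hH 0 (Submodule.zero_mem _) h
      rw [MulAction.Quotient.smul_mk, smul_eq_mul, QuotientGroup.eq]
      have : (t ^ n * h)⁻¹ * h = h⁻¹ * (t ^ n)⁻¹ * h := by
        rw [mul_inv_rev]
      rw [this]
      exact hm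
  -- inclusion of `H × V`
  let ι : (H × (G ⧸ Γ → ℂ)) →ₗ[ℂ] ((Additive Γ →+ ℂ) × (G ⧸ Γ → ℂ)) :=
    LinearMap.prodMap H.subtype LinearMap.id
  have hιH : ∀ p, ∀ h : G, ∃ hm : h⁻¹ * (t ^ n)⁻¹ * h ∈ Γ,
      (ι p).1 (Additive.ofMul (⟨_, hm⟩ : Γ)) = 0 := fun p h => hH _ p.1.2 h
  have hKS : ∀ p, cocL S (ι p) ∈ KS Γ S := by
    intro p
    have h1 := cocL_mul S S (ι p)
    rw [hS, cocL_central ε hεΓ hεc hε2] at h1
    rw [KS, LinearMap.mem_ker]
    simpa using h1.symm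
  have hKU : ∀ p, cocL U (ι p) ∈ KU Γ U := by
    intro p
    have h1 := cocL_mul (U * U) U (ι p)
    rw [hU, cocL_central ε hεΓ hεc hε2, cocL_mul U U, L_mul_apply] at h1
    rw [KU, LinearMap.mem_ker]
    simp only [LinearMap.add_apply, LinearMap.id_coe, id_eq, LinearMap.comp_apply]
    rw [h1]
  -- the cocycle value at `t`
  have hcoct : ∀ p, cocL t (ι p) = L S⁻¹ (cocL U (ι p) - cocL S (ι p)) := by
    intro p
    rw [ht, cocL_mul, cocL_inv, map_sub]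
    abel
  have hNt : ∀ p, Nop t n (L S⁻¹ (cocL U (ι p) - cocL S (ι p))) = 0 := by
    intro p
    rw [← hcoct, ← cocL_pow]
    exact cocL_eq_zero_of_conj _ _ (hιH p)
  -- the maps
  let a : (H × (G ⧸ Γ → ℂ)) →ₗ[ℂ] KS Γ S := LinearMap.codRestrict _ (cocL S ∘ₗ ι) hKS
  let b : (H × (G ⧸ Γ → ℂ)) →ₗ[ℂ] KU Γ U := LinearMap.codRestrict _ (cocL U ∘ₗ ι) hKU
  let Θ₁ : (H × (G ⧸ Γ → ℂ)) →ₗ[ℂ] (KS Γ S × KU Γ U) := a.prod b
  let Λ : (KS Γ S × KU Γ U) →ₗ[ℂ] (G ⧸ Γ → ℂ) :=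
    (Nop t n ∘ₗ L S⁻¹) ∘ₗ
      ((KU Γ U).subtype ∘ₗ LinearMap.snd ℂ _ _ - (KS Γ S).subtype ∘ₗ LinearMap.fst ℂ _ _)
  have hΛΘ : ∀ p, Θ₁ p ∈ LinearMap.ker Λ := by
    intro p
    rw [LinearMap.mem_ker]
    exact hNt p
  let Θ₂ : (H × (G ⧸ Γ → ℂ)) →ₗ[ℂ] LinearMap.ker Λ := LinearMap.codRestrict _ Θ₁ hΛΘ
  let J : (H × (G ⧸ Γ → ℂ)) →ₗ[ℂ] (LinearMap.ker Λ × ℂ) :=
    Θ₂.prod (LinearMap.proj x₀ ∘ₗ LinearMap.snd ℂ _ _)
  have hJ : Function.Injective J := by
    refine (injective_iff_map_eq_zero J).mpr ?_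
    intro p hp
    have h1 : Θ₂ p = 0 := congrArg Prod.fst hp
    have h2 : p.2 x₀ = 0 := congrArg Prod.snd hp
    have h3 : Θ₁ p = 0 := congrArg Subtype.val h1
    have h4 : cocL S (ι p) = 0 := congrArg (fun q => (q.1 : G ⧸ Γ → ℂ)) h3
    have h5 : cocL U (ι p) = 0 := congrArg (fun q => (q.2 : G ⧸ Γ → ℂ)) h3
    obtain ⟨h6, h7⟩ := eq_zero_of_cocL_eq_zero S U hgen (ι p) h4 h5
    apply Prod.ext
    · exact Subtype.ext h6
    · ext x
      have := h7 x x₀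
      simp only [ι, LinearMap.prodMap_apply, LinearMap.id_coe, id_eq] at this
      rw [this, h2]; rfl
  have hfinK : FiniteDimensional ℂ (LinearMap.ker Λ × ℂ) := inferInstance
  have hfinHV : FiniteDimensional ℂ (H × (G ⧸ Γ → ℂ)) :=
    @FiniteDimensional.of_injective ℂ _ _ _ _ _ _ _ J hJ hfinK
  have hfinH : FiniteDimensional ℂ H :=
    FiniteDimensional.of_injective (LinearMap.inl ℂ H (G ⧸ Γ → ℂ)) LinearMap.inl_injective
  refine ⟨hfinH, ?_⟩
  -- dimension count, part 1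
  have hd1 : finrank ℂ H + Nat.card (G ⧸ Γ) ≤ finrank ℂ (LinearMap.ker Λ) + 1 := by
    have := LinearMap.finrank_le_finrank_of_injective hJ
    have hfree := Module.Free.of_divisionRing ℂ ↥(LinearMap.ker Λ)
    rw [Module.finrank_prod, Module.finrank_prod, Module.finrank_fintype_fun_eq_card,
      Module.finrank_self, ← Nat.card_eq_fintype_card] at this
    exact this
  -- rank-nullity for `Λ`
  have hd2 : finrank ℂ (LinearMap.range Λ) + finrank ℂ (LinearMap.ker Λ)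
      = finrank ℂ (KS Γ S) + finrank ℂ (KU Γ U) := by
    rw [LinearMap.finrank_range_add_finrank_ker, Module.finrank_prod]
  -- the range of `Λ` is large
  have hsub : (augKer (X := G ⧸ Γ)).map (Nop t n) ≤ LinearMap.range Λ := by
    rintro _ ⟨v, hv, rfl⟩
    have hv' : L S v ∈ KS Γ S ⊔ KU Γ U :=
      augKer_le_KS_sup_KU S U ε hgen hS hU hεΓ hεc (L_mem_augKer S hv)
    obtain ⟨a', ha', b', hb', hab⟩ := Submodule.mem_sup.mp hv'
    refine ⟨(⟨-a', Submodule.neg_mem _ ha'⟩, ⟨b', hb'⟩), ?_⟩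
    show Nop t n (L S⁻¹ (b' - -a')) = Nop t n v
    rw [sub_neg_eq_add, add_comm, hab, L_inv_L]
  have hd3 : Nat.card (orbitRel.Quotient (Subgroup.zpowers t) (G ⧸ Γ))
      ≤ finrank ℂ (LinearMap.range Λ) + 1 := by
    have hc : Nat.card (orbitRel.Quotient (Subgroup.zpowers t) (G ⧸ Γ))
        = finrank ℂ (invSub (X := G ⧸ Γ) t) := (finrank_invSub (X := G ⧸ Γ) t).symm
    rw [hc, ← range_Nop t n hn htn]
    refine (finrank_range_le_map_augKer (Nop t n)).trans ?_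
    gcongr
    exact Submodule.finrank_mono hsub
  omega

end main

end Fermat.Agent.S21_helper86
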