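import Mathlib

set_option autoImplicit false

/-!
Linear algebra on the permutation module `X → ℂ` of a finite `G`-set `X`:
translation operators, their traces, and dimension counts for kernels of
`1 + s` (`s` an involution) and `1 + u + u²` (`u` of order three).
-/

namespace Fermat.Agent.S21_helper86

open Module

variable {G X : Type*} [Group G] [MulAction G X]

/-- The translation operator `(L g φ) x = φ (g⁻¹ • x)` on functions `X → ℂ`. -/
def L (g : G) : (X → ℂ) →ₗ[ℂ] (X → ℂ) := LinearMap.funLeft ℂ ℂ (fun x => g⁻¹ • x)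

@[simp] lemma L_apply (g : G) (φ : X → ℂ) (x : X) : L g φ x = φ (g⁻¹ • x) := rfl

lemma L_one : L (1 : G) = (LinearMap.id : (X → ℂ) →ₗ[ℂ] (X → ℂ)) := by
  ext φ x; simp

lemma L_mul (g h : G) : (L (g * h) : (X → ℂ) →ₗ[ℂ] (X → ℂ)) = L g ∘ₗ L h := by
  ext φ x; simp [mul_smul]

lemma L_mul_apply (g h : G) (φ : X → ℂ) : L (g * h) φ = L g (L h φ) := by
  rw [L_mul]; rfl

lemma L_inv_L (g : G) (φ : X → ℂ) : L g⁻¹ (L g φ) = φ := by
  rw [← L_mul_apply, inv_mul_cancel, L_one]; rfl

lemma L_L_inv (g : G) (φ : X → ℂ) : L g (L g⁻¹ φ) = φ := by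
  rw [← L_mul_apply, mul_inv_cancel, L_one]; rfl

lemma L_eq_id_of_smul_eq (g : G) (h : ∀ x : X, g • x = x) :
    (L g : (X → ℂ) →ₗ[ℂ] (X → ℂ)) = LinearMap.id := by
  ext φ x
  have : g⁻¹ • x = x := by
    conv_lhs => rw [← h x]
    rw [inv_smul_smul]
  simp [this]

lemma L_single [DecidableEq X] (g : G) (y : X) (c : ℂ) :
    L g (Pi.single y c) = (Pi.single (g • y) c : X → ℂ) := by
  ext x
  simp only [L_apply, Pi.single_apply]
  by_cases h : x = g • y
  · subst h; simp
  · have : g⁻¹ • x ≠ y := fun h' => h (by rw [← h', smul_inv_smul])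
    simp [h, this]

section trace

variable [Fintype X] [DecidableEq X]

/-- The trace of a translation operator is the number of fixed points. -/
lemma trace_L (g : G) :
    LinearMap.trace ℂ (X → ℂ) (L g) = ((Finset.univ.filter (fun x : X => g • x = x)).card : ℂ) := by
  rw [LinearMap.trace_eq_matrix_trace ℂ (Pi.basisFun ℂ X), LinearMap.toMatrix_eq_toMatrix',
    Matrix.trace]
  simp only [Matrix.diag_apply, LinearMap.toMatrix'_apply, L_apply, Pi.single_apply]
  rw [Finset.card_filter, Nat.cast_sum]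
  refine Finset.sum_congr rfl fun x _ => ?_
  have : (g⁻¹ • x = x) ↔ (g • x = x) := by
    constructor
    · intro h; conv_lhs => rw [← h]; rw [smul_inv_smul]
    · intro h; conv_lhs => rw [← h]; rw [inv_smul_smul]
  by_cases h : g • x = x
  · simp [h, this.mpr h]
  · have h' : ¬ g⁻¹ • x = x := fun h'' => h (this.mp h'')
    simp [h, h']

omit [DecidableEq X] in
lemma trace_id_fun : LinearMap.trace ℂ (X → ℂ) LinearMap.id = (Fintype.card X : ℂ) := by
  rw [LinearMap.trace_id, Module.finrank_fintype_fun_eq_card]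

/-- number of fixed points of `g` on `X` -/
def fixCard (g : G) : ℕ := (Finset.univ.filter (fun x : X => g • x = x)).card

lemma trace_L' (g : G) : LinearMap.trace ℂ (X → ℂ) (L g) = (fixCard (X := X) g : ℂ) := trace_L g

/-- If `s` acts as an involution on `X`, the `(-1)`-eigenspace of `L s` has dimension
`(|X| - #Fix s) / 2`. -/
lemma finrank_ker_id_add_L (s : G) (hs : ∀ x : X, s • s • x = x) :
    2 * finrank ℂ (LinearMap.ker (LinearMap.id + L s : (X → ℂ) →ₗ[ℂ] (X → ℂ)))
      + fixCard (X := X) s = Fintype.card X := by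
  have hss : ∀ φ : X → ℂ, L s (L s φ) = φ := by
    intro φ
    rw [← L_mul_apply, L_eq_id_of_smul_eq (s * s) (fun x => by rw [mul_smul]; exact hs x)]
    rfl
  set K := LinearMap.ker (LinearMap.id + L s : (X → ℂ) →ₗ[ℂ] (X → ℂ)) with hK
  set P : (X → ℂ) →ₗ[ℂ] (X → ℂ) := (1 / 2 : ℂ) • (LinearMap.id - L s) with hP
  have hproj : LinearMap.IsProj K P := by
    refine ⟨fun φ => ?_, fun φ hφ => ?_⟩
    · rw [hK, LinearMap.mem_ker, hP]
      simp only [LinearMap.add_apply, LinearMap.id_coe, id_eq, LinearMap.smul_apply,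
        LinearMap.sub_apply, map_smul, map_sub, hss]
      module
    · rw [hK, LinearMap.mem_ker] at hφ
      simp only [LinearMap.add_apply, LinearMap.id_coe, id_eq] at hφ
      have : L s φ = -φ := by rw [eq_neg_iff_add_eq_zero, add_comm]; exact hφ
      rw [hP]
      simp only [LinearMap.smul_apply, LinearMap.sub_apply, LinearMap.id_coe, id_eq, this]
      module
  have htr := hproj.trace
  rw [hP, map_smul, map_sub, trace_id_fun, trace_L'] at htr
  have : (2 : ℂ) * (finrank ℂ K : ℂ) + (fixCard (X := X) s : ℂ) = (Fintype.card X : ℂ) := by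
    rw [← htr]; simp only [smul_eq_mul]; ring
  exact_mod_cast this

/-- If `u` acts with `u³ = 1` on `X`, the kernel of `1 + L u + L u²` has dimension
`2 (|X| - #Fix u) / 3`. -/
lemma finrank_ker_id_add_L_add_L_sq (u : G) (hu : ∀ x : X, u • u • u • x = x) :
    3 * finrank ℂ (LinearMap.ker
        (LinearMap.id + L u + L u ∘ₗ L u : (X → ℂ) →ₗ[ℂ] (X → ℂ)))
      + 2 * fixCard (X := X) u = 2 * Fintype.card X := by
  have huuu : ∀ φ : X → ℂ, L u (L u (L u φ)) = φ := by
    intro φ
    rw [← L_mul_apply, ← L_mul_apply,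
      L_eq_id_of_smul_eq (u * u * u) (fun x => by rw [mul_smul, mul_smul]; exact hu x)]
    rfl
  have hfix : fixCard (X := X) (u * u) = fixCard (X := X) u := by
    unfold fixCard
    congr 1
    ext x
    simp only [Finset.mem_filter, Finset.mem_univ, true_and, mul_smul]
    constructor
    · intro h
      have h3 := hu x
      rw [h] at h3
      exact h3
    · intro h; rw [h, h]
  set K := LinearMap.ker (LinearMap.id + L u + L u ∘ₗ L u : (X → ℂ) →ₗ[ℂ] (X → ℂ)) with hK
  set Q : (X → ℂ) →ₗ[ℂ] (X → ℂ) :=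
    LinearMap.id - (1 / 3 : ℂ) • (LinearMap.id + L u + L (u * u)) with hQ
  have hproj : LinearMap.IsProj K Q := by
    refine ⟨fun φ => ?_, fun φ hφ => ?_⟩
    · rw [hK, LinearMap.mem_ker, hQ]
      simp only [LinearMap.add_apply, LinearMap.id_coe, id_eq, LinearMap.smul_apply,
        LinearMap.sub_apply, map_smul, map_sub, map_add, LinearMap.comp_apply, L_mul_apply, huuu]
      module
    · rw [hK, LinearMap.mem_ker] at hφ
      simp only [LinearMap.add_apply, LinearMap.id_coe, id_eq, LinearMap.comp_apply] at hφ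
      rw [hQ]
      simp only [LinearMap.smul_apply, LinearMap.sub_apply, LinearMap.add_apply,
        LinearMap.id_coe, id_eq, L_mul_apply, hφ, smul_zero, sub_zero]
  have htr := hproj.trace
  rw [hQ, map_sub, map_smul, map_add, map_add, trace_id_fun, trace_L', trace_L', hfix] at htr
  have : (3 : ℂ) * (finrank ℂ K : ℂ) + 2 * (fixCard (X := X) u : ℂ)
      = 2 * (Fintype.card X : ℂ) := by
    rw [← htr]; simp only [smul_eq_mul]; ring
  exact_mod_cast this

end trace

end Fermat.Agent.S21_helper86
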