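import Fermat.Agent.S21_helper86.Invariants

set_option autoImplicit false

/-!
Shapiro's lemma by hand: additive characters `ψ : Γ → ℂ` of a finite-index subgroup `Γ ≤ G`
give cocycles of `G` with values in the permutation module `G ⧸ Γ → ℂ`.
-/

namespace Fermat.Agent.S21_helper86

open Module MulAction

variable {G : Type*} [Group G] {Γ : Subgroup G}

/-- `F (g γ) = F g + ψ γ`. -/
def IsTwisted (ψ : Additive Γ →+ ℂ) (F : G → ℂ) : Prop :=
  ∀ (g : G) (γ : Γ), F (g * γ) = F g + ψ (Additive.ofMul γ)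

lemma out_inv_mul_mem (g : G) : ((g : G ⧸ Γ).out)⁻¹ * g ∈ Γ :=
  QuotientGroup.eq.mp (QuotientGroup.out_eq' (g : G ⧸ Γ))

/-- The standard `ψ`-twisted function attached to the section `Quotient.out`. -/
noncomputable def stdF (ψ : Additive Γ →+ ℂ) (g : G) : ℂ :=
  ψ (Additive.ofMul (⟨((g : G ⧸ Γ).out)⁻¹ * g, out_inv_mul_mem g⟩ : Γ))

lemma stdF_isTwisted (ψ : Additive Γ →+ ℂ) : IsTwisted ψ (stdF ψ) := by
  intro g γ
  have hq : ((g * γ : G) : G ⧸ Γ) = (g : G ⧸ Γ) := QuotientGroup.mk_mul_of_mem g γ.2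
  have : (⟨(((g * γ : G) : G ⧸ Γ).out)⁻¹ * (g * γ), out_inv_mul_mem _⟩ : Γ)
      = ⟨((g : G ⧸ Γ).out)⁻¹ * g, out_inv_mul_mem g⟩ * γ := by
    apply Subtype.ext
    simp only [Subgroup.coe_mul]
    rw [hq, mul_assoc]
  unfold stdF
  rw [this, ofMul_mul, map_add]

/-- The cocycle attached to a twisted function. -/
noncomputable def coc (F : G → ℂ) (g : G) : G ⧸ Γ → ℂ :=
  fun x => F x.out - F (g⁻¹ * x.out)

lemma coc_mk {ψ : Additive Γ →+ ℂ} {F : G → ℂ} (hF : IsTwisted ψ F) (g h : G) :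
    coc (Γ := Γ) F g (h : G ⧸ Γ) = F h - F (g⁻¹ * h) := by
  have hγ : h⁻¹ * ((h : G ⧸ Γ).out) ∈ Γ := QuotientGroup.eq.mp (QuotientGroup.out_eq' _).symm
  have e : (h : G ⧸ Γ).out = h * ((⟨_, hγ⟩ : Γ) : G) := by simp
  unfold coc
  rw [e, hF, ← mul_assoc, hF]
  ring

lemma coc_mul {ψ : Additive Γ →+ ℂ} {F : G → ℂ} (hF : IsTwisted ψ F) (g₁ g₂ : G) :
    coc (Γ := Γ) F (g₁ * g₂) = coc F g₁ + L g₁ (coc F g₂) := by
  ext x
  induction x using QuotientGroup.induction_on with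
  | H h =>
    simp only [Pi.add_apply, L_apply]
    rw [MulAction.Quotient.smul_mk, smul_eq_mul, coc_mk hF, coc_mk hF, coc_mk hF, mul_inv_rev,
      mul_assoc]
    ring

lemma coc_one (F : G → ℂ) : coc (Γ := Γ) F 1 = 0 := by
  ext x; simp [coc]

/-- The twisted function attached to a pair (character, function on cosets). -/
noncomputable def Ffun (p : (Additive Γ →+ ℂ) × (G ⧸ Γ → ℂ)) : G → ℂ :=
  fun g => stdF p.1 g + p.2 (g : G ⧸ Γ)

lemma Ffun_isTwisted (p : (Additive Γ →+ ℂ) × (G ⧸ Γ → ℂ)) : IsTwisted p.1 (Ffun p) := by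
  intro g γ
  have hq : ((g * γ : G) : G ⧸ Γ) = (g : G ⧸ Γ) := QuotientGroup.mk_mul_of_mem g γ.2
  unfold Ffun
  rw [stdF_isTwisted p.1 g γ, hq]
  ring

lemma Ffun_add (p q : (Additive Γ →+ ℂ) × (G ⧸ Γ → ℂ)) : Ffun (p + q) = Ffun p + Ffun q := by
  ext g
  simp only [Ffun, stdF, Prod.fst_add, Prod.snd_add, AddMonoidHom.add_apply, Pi.add_apply]
  ring

lemma Ffun_smul (c : ℂ) (p : (Additive Γ →+ ℂ) × (G ⧸ Γ → ℂ)) : Ffun (c • p) = c • Ffun p := by
  ext g
  simp only [Ffun, stdF, Prod.smul_fst, Prod.smul_snd, AddMonoidHom.smul_apply, Pi.smul_apply,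
    smul_eq_mul]
  ring

/-- The cocycle value at `g`, as a linear map in the pair (character, function). -/
noncomputable def cocL (g : G) :
    ((Additive Γ →+ ℂ) × (G ⧸ Γ → ℂ)) →ₗ[ℂ] (G ⧸ Γ → ℂ) where
  toFun p := coc (Ffun p) g
  map_add' p q := by
    ext x
    simp only [coc, Ffun_add, Pi.add_apply]
    ring
  map_smul' c p := by
    ext x
    simp only [coc, Ffun_smul, Pi.smul_apply, smul_eq_mul, RingHom.id_apply]
    ring

lemma cocL_apply (g : G) (p : (Additive Γ →+ ℂ) × (G ⧸ Γ → ℂ)) :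
    cocL g p = coc (Ffun p) g := rfl

lemma cocL_mk (g h : G) (p : (Additive Γ →+ ℂ) × (G ⧸ Γ → ℂ)) :
    cocL g p (h : G ⧸ Γ) = Ffun p h - Ffun p (g⁻¹ * h) :=
  coc_mk (Ffun_isTwisted p) g h

lemma cocL_mul (g₁ g₂ : G) (p : (Additive Γ →+ ℂ) × (G ⧸ Γ → ℂ)) :
    cocL (g₁ * g₂) p = cocL g₁ p + L g₁ (cocL g₂ p) :=
  coc_mul (Ffun_isTwisted p) g₁ g₂

lemma cocL_one (p : (Additive Γ →+ ℂ) × (G ⧸ Γ → ℂ)) : cocL (1 : G) p = 0 := coc_one _

lemma cocL_inv (g : G) (p : (Additive Γ →+ ℂ) × (G ⧸ Γ → ℂ)) :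
    cocL g⁻¹ p = - L g⁻¹ (cocL g p) := by
  have := cocL_mul g⁻¹ g p
  rw [inv_mul_cancel, cocL_one] at this
  exact eq_neg_of_add_eq_zero_left this.symm

/-- A central element of order two lying in `Γ` has trivial cocycle value. -/
lemma cocL_central (ε : G) (hεΓ : ε ∈ Γ) (hεc : ∀ g, ε * g = g * ε) (hε2 : ε * ε = 1)
    (p : (Additive Γ →+ ℂ) × (G ⧸ Γ → ℂ)) : cocL ε p = 0 := by
  ext x
  induction x using QuotientGroup.induction_on with
  | H h =>
    rw [cocL_mk]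
    have hinv : ε⁻¹ = ε := inv_eq_of_mul_eq_one_left hε2
    have h1 : ε⁻¹ * h = h * ((⟨ε, hεΓ⟩ : Γ) : G) := by rw [hinv]; exact hεc h
    rw [h1, Ffun_isTwisted p]
    have h2 : p.1 (Additive.ofMul (⟨ε, hεΓ⟩ : Γ)) + p.1 (Additive.ofMul (⟨ε, hεΓ⟩ : Γ)) = 0 := by
      rw [← map_add, ← ofMul_mul]
      have : (⟨ε, hεΓ⟩ : Γ) * ⟨ε, hεΓ⟩ = 1 := Subtype.ext hε2
      rw [this, ofMul_one, map_zero]
    have h3 : p.1 (Additive.ofMul (⟨ε, hεΓ⟩ : Γ)) = 0 := by
      have : (2 : ℂ) * p.1 (Additive.ofMul (⟨ε, hεΓ⟩ : Γ)) = 0 := by rw [two_mul]; exact h2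
      exact (mul_eq_zero.mp this).resolve_left two_ne_zero
    rw [h3]
    simp

/-- If `ψ` kills all conjugates `h⁻¹ g⁻¹ h` (which are assumed to lie in `Γ`), then the
cocycle value at `g` vanishes. -/
lemma cocL_eq_zero_of_conj (g : G) (p : (Additive Γ →+ ℂ) × (G ⧸ Γ → ℂ))
    (hp : ∀ h : G, ∃ hm : h⁻¹ * g⁻¹ * h ∈ Γ, p.1 (Additive.ofMul (⟨_, hm⟩ : Γ)) = 0) :
    cocL g p = 0 := by
  ext x
  induction x using QuotientGroup.induction_on with
  | H h =>
    rw [cocL_mk]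
    obtain ⟨hm, h0⟩ := hp h
    have h1 : g⁻¹ * h = h * ((⟨_, hm⟩ : Γ) : G) := by
      simp only [mul_assoc, mul_inv_cancel_left]
    rw [h1, Ffun_isTwisted p, h0]
    simp

lemma cocL_pow (t : G) (n : ℕ) (p : (Additive Γ →+ ℂ) × (G ⧸ Γ → ℂ)) :
    cocL (t ^ n) p = Nop t n (cocL t p) := by
  induction n with
  | zero => simp [cocL_one, Nop]
  | succ n ih =>
    rw [pow_succ, cocL_mul, ih, Nop_apply, Nop_apply, Finset.sum_range_succ]

/-- If the cocycle values at two generators vanish, the character is zero and the function is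
constant. -/
lemma eq_zero_of_cocL_eq_zero (S U : G) (hgen : Subgroup.closure {S, U} = ⊤)
    (p : (Additive Γ →+ ℂ) × (G ⧸ Γ → ℂ)) (hS : cocL S p = 0) (hU : cocL U p = 0) :
    p.1 = 0 ∧ ∀ x y : G ⧸ Γ, p.2 x = p.2 y := by
  have key : ∀ g : G, ∀ h : G, Ffun p (g * h) = Ffun p h := by
    intro g
    have hg : g ∈ Subgroup.closure {S, U} := by rw [hgen]; trivial
    induction hg using Subgroup.closure_induction with
    | mem x hx =>
      intro h
      have hx0 : cocL x p = 0 := by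
        rcases hx with rfl | rfl
        · exact hS
        · exact hU
      have := congrFun hx0 ((x * h : G) : G ⧸ Γ)
      rw [cocL_mk, inv_mul_cancel_left] at this
      simpa [sub_eq_zero] using this
    | one => intro h; rw [one_mul]
    | mul x y _ _ hx hy => intro h; rw [mul_assoc, hx, hy]
    | inv x _ hx =>
      intro h
      have := hx (x⁻¹ * h)
      rw [mul_inv_cancel_left] at this
      exact this.symm
  have hconst : ∀ g : G, Ffun p g = Ffun p 1 := fun g => by simpa using key g 1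
  have hψ : p.1 = 0 := by
    ext γ
    have := Ffun_isTwisted p 1 γ
    rw [hconst, hconst 1] at this
    simpa using this.symm
  refine ⟨hψ, fun x y => ?_⟩
  induction x using QuotientGroup.induction_on with
  | H a =>
    induction y using QuotientGroup.induction_on with
    | H b =>
      have ha := hconst a
      have hb := hconst b
      simp only [Ffun, stdF, hψ, AddMonoidHom.zero_apply, zero_add] at ha hb
      rw [ha, hb]

end Fermat.Agent.S21_helper86
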